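import Fermat.Agent.HW.Pow.Node
import Fermat.Agent.HW.AtP.Bound

/-!
# ML / E-side at `p`, multiplicative reduction : `[HEIGHT1]`  (= (G3) of `[E-ORD]`)

`W : (Y - αX)(Y - βX) = X³ + c` (`HW.NodeData`), residue characteristic `p` odd, `v c ≤ v p`.

* `exists_line`  : chord and tangent, Vieta's three formulas for the line through `P`, `Q`, `-(P+Q)`;
* `cocycle`      : `g_P g_Q f_(P+Q) - f_P f_Q g_(P+Q) = c ((l-β)³ - (l-α)³)`, `X_P + X_Q + X_(P+Q) = (l-α)(l-β)`;
* `val_nonint`   : at a non integral point `v f = v g`, `v g ² = v x ³`;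
* `height_one`   : a non integral `p`-torsion point `t` has `1 ≤ v p * v (x t) ^ ((p-1)/2)`  (height one);
* `exists_nsmul_of_nonintegral` : the non integral `p`-torsion points lie on one line;
* `Δ_eq`, `val_c_eq` : `Δ = -c ((α-β)⁶ + 432 c)`, `v c = v Δ`.
-/

set_option autoImplicit false
set_option linter.unusedSectionVars false

namespace Fermat.Agent.ML.ESide.Height

open WeierstrassCurve WeierstrassCurve.Affine WeierstrassCurve.Affine.Point
open Fermat.Agent.S05 Fermat.Agent.S13 Fermat.Agent.HW Fermat.Agent.HW.AtP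

variable {K : Type*} [Field K] [DecidableEq K] {W : WeierstrassCurve.Affine K}

/-- **chord and tangent**: the line through `P`, `Q`, `-(P+Q)` and Vieta's formulas. -/
theorem exists_line {P Q : W.Point} (hP : P ≠ 0) (hQ : Q ≠ 0) (hPQ : P + Q ≠ 0) :
    ∃ l ν : K, yc P = l * xc P + ν ∧ yc Q = l * xc Q + ν ∧ yc (-(P + Q)) = l * xc (P + Q) + ν ∧
      xc P + xc Q + xc (P + Q) = l ^ 2 + W.a₁ * l - W.a₂ ∧
      xc P * xc Q + xc P * xc (P + Q) + xc Q * xc (P + Q) = W.a₄ - W.a₃ * l - (2 * l + W.a₁) * ν ∧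
      xc P * xc Q * xc (P + Q) = ν ^ 2 + W.a₃ * ν - W.a₆ := by
  cases P with
  | zero => exact absurd rfl hP
  | some x1 y1 h1 =>
  cases Q with
  | zero => exact absurd rfl hQ
  | some x2 y2 h2 =>
  have e1 := (equation_iff _ _).1 h1.1
  have e2 := (equation_iff _ _).1 h2.1
  by_cases hx : x1 = x2
  · subst hx
    have hy : y1 ≠ W.negY x1 y2 := by
      intro hy
      exact hPQ (add_of_Y_eq rfl hy)
    have hyy : y1 = y2 := by
      have : (y1 - y2) * (y1 - W.negY x1 y2) = 0 := by
        simp only [negY]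
        linear_combination e1 - e2
      rcases mul_eq_zero.1 this with h | h
      · exact sub_eq_zero.1 h
      · exact absurd (sub_eq_zero.1 h) hy
    subst hyy
    rw [add_of_Y_ne hy, neg_some]
    simp only [xc_some, yc_some]
    set l := W.slope x1 x1 y1 y1 with hl
    have hd : y1 - W.negY x1 y1 ≠ 0 := sub_ne_zero.2 hy
    have hs : l * (y1 - W.negY x1 y1) = 3 * x1 ^ 2 + 2 * W.a₂ * x1 + W.a₄ - W.a₁ * y1 := by
      rw [hl, slope_of_Y_ne rfl hy]
      field_simp
    simp only [negY] at hs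
    refine ⟨l, y1 - l * x1, by ring, by ring, ?_, ?_, ?_, ?_⟩
    · simp only [addY, negY, negAddY, addX]; ring
    · simp only [addX]; ring
    · simp only [addX]
      linear_combination hs
    · simp only [addX]
      linear_combination x1 * hs - e1
  · rw [add_of_X_ne hx, neg_some]
    simp only [xc_some, yc_some]
    set l := W.slope x1 x2 y1 y2 with hl
    have hd : x1 - x2 ≠ 0 := sub_ne_zero.2 hx
    have hs : l * (x1 - x2) = y1 - y2 := by
      rw [hl, slope_of_X_ne hx]
      field_simp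
    have hG : (l ^ 2 + W.a₁ * l - W.a₂) * (x1 + x2) - (x1 ^ 2 + x1 * x2 + x2 ^ 2)
        = W.a₄ - W.a₃ * l - (2 * l + W.a₁) * (y1 - l * x1) := by
      apply mul_left_cancel₀ hd
      linear_combination e1 - e2 + (y1 + y2 + W.a₁ * x2 + W.a₃ - l * (x1 - x2)) * hs
    refine ⟨l, y1 - l * x1, by ring, by linear_combination hs, ?_, ?_, ?_, ?_⟩
    · simp only [addY, negY, negAddY, addX]; ring
    · simp only [addX]; ring
    · simp only [addX]
      linear_combination hG
    · simp only [addX]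
      linear_combination x1 * hG - e1

variable {A : ValuationSubring K} {x0 y0 α β c : K}

/-- the product of `Y - αX` over the three points of a line. -/
theorem prod_line_aux (N : NodeData A W x0 y0 α β c) {x1 x2 x3 l ν : K}
    (V1 : x1 + x2 + x3 = l ^ 2 + W.a₁ * l - W.a₂)
    (V2 : x1 * x2 + x1 * x3 + x2 * x3 = W.a₄ - W.a₃ * l - (2 * l + W.a₁) * ν)
    (V3 : x1 * x2 * x3 = ν ^ 2 + W.a₃ * ν - W.a₆) :
    ((l * x1 + ν - y0) - α * (x1 - x0)) * ((l * x2 + ν - y0) - α * (x2 - x0)) *
      ((l * x3 + ν - y0) - α * (x3 - x0)) = (ν + l * x0 - y0) ^ 3 - c * (l - α) ^ 3 := by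
  rw [N.a₆_eq, N.a₃_eq] at V3
  rw [N.a₄_eq, N.a₃_eq, N.a₁_eq] at V2
  rw [N.a₂_eq, N.a₁_eq] at V1
  linear_combination (l - α) ^ 3 * V3 + (-(l - α) ^ 3 * x0 + (l - α) ^ 2 * (ν + l * x0 - y0)) * V2
    + ((l - α) ^ 3 * x0 ^ 2 - 2 * (l - α) ^ 2 * (ν + l * x0 - y0) * x0
      + (l - α) * (ν + l * x0 - y0) ^ 2) * V1

/-- **the cocycle identity**. -/
theorem cocycle (N : NodeData A W x0 y0 α β c) {P Q : W.Point} (hP : P ≠ 0) (hQ : Q ≠ 0)
    (hPQ : P + Q ≠ 0) :
    ∃ l : K, (xc P - x0) + (xc Q - x0) + (xc (P + Q) - x0) = (l - α) * (l - β) ∧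
      ((yc P - y0) - β * (xc P - x0)) * ((yc Q - y0) - β * (xc Q - x0)) *
          ((yc (P + Q) - y0) - α * (xc (P + Q) - x0))
        - ((yc P - y0) - α * (xc P - x0)) * ((yc Q - y0) - α * (xc Q - x0)) *
          ((yc (P + Q) - y0) - β * (xc (P + Q) - x0))
        = c * ((l - β) ^ 3 - (l - α) ^ 3) := by
  obtain ⟨l, ν, h1, h2, h3, V1, V2, V3⟩ := exists_line hP hQ hPQ
  have hα := prod_line_aux N V1 V2 V3
  have hβ := prod_line_aux N.symm V1 V2 V3
  rw [yc_neg hPQ, negY] at h3
  refine ⟨l, ?_, ?_⟩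
  · linear_combination V1 + l * N.hsum - N.hprod
  · have e3 : yc (P + Q) = -(l * xc (P + Q) + ν) - W.a₁ * xc (P + Q) - W.a₃ := by
      linear_combination (-1 : K) * h3
    rw [h1, h2, e3, N.a₃_eq, N.a₁_eq]
    linear_combination hα - hβ

/-- a non integral point: `v f = v g`, `v g ^ 2 = v X ^ 3`. -/
theorem val_nonint (N : NodeData A W x0 y0 α β c) {R : W.Point} (hR : R ≠ 0)
    (hx : 1 < A.valuation (xc R)) :
    A.valuation (xc R - x0) = A.valuation (xc R) ∧
      A.valuation ((yc R - y0) - α * (xc R - x0)) = A.valuation ((yc R - y0) - β * (xc R - x0)) ∧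
      A.valuation ((yc R - y0) - β * (xc R - x0)) ^ 2 = A.valuation (xc R) ^ 3 := by
  have e1 := N.eqn hR
  have hX : A.valuation (xc R - x0) = A.valuation (xc R) :=
    Valuation.map_sub_eq_of_lt_left _ (lt_of_le_of_lt N.vx0 hx)
  obtain ⟨X, hXdef⟩ : ∃ X, X = xc R - x0 := ⟨_, rfl⟩
  obtain ⟨f, hfdef⟩ : ∃ f, f = (yc R - y0) - α * (xc R - x0) := ⟨_, rfl⟩
  obtain ⟨g, hgdef⟩ : ∃ g, g = (yc R - y0) - β * (xc R - x0) := ⟨_, rfl⟩
  have e2 : (β - α) * X = f - g := by rw [hXdef, hfdef, hgdef]; ring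
  rw [← hfdef, ← hgdef, ← hXdef] at e1
  rw [← hXdef] at hX
  rw [← hfdef, ← hgdef, ← hXdef, ← hX]
  rw [← hX] at hx
  set v := A.valuation with hv
  have hβα : v (β - α) = 1 := by rw [← N.vαβ, ← Valuation.map_neg, neg_sub]
  have h3 : v (X ^ 3 + c) = v X ^ 3 := by
    rw [← map_pow]
    refine Valuation.map_add_eq_of_lt_left _ ?_
    rw [map_pow]
    exact lt_trans N.vc (one_lt_pow₀ hx (by norm_num))
  have hfg : v f * v g = v X ^ 3 := by rw [← map_mul, e1, h3]
  have hd : v (f - g) = v X := by rw [← e2, map_mul, hβα, one_mul]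
  have hpos : 0 < v X := lt_trans zero_lt_one hx
  have key : ∀ {a b : K}, v a * v b = v X ^ 3 → v (a - b) = v X → ¬ v a < v b := by
    intro a b hab hdab hlt
    have h1 : v b = v X := by rw [← hdab]; exact (Valuation.map_sub_eq_of_lt_right _ hlt).symm
    rw [h1] at hab hlt
    have h2 : v a = v X ^ 2 := by
      apply mul_right_cancel₀ hpos.ne'
      rw [hab, pow_succ]
    rw [h2] at hlt
    have : v X ^ 1 < v X ^ 2 := pow_lt_pow_right₀ hx (by norm_num)
    rw [pow_one] at this
    exact lt_asymm hlt this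
  have heq : v f = v g := by
    rcases lt_trichotomy (v f) (v g) with h | h | h
    · exact absurd h (key hfg hd)
    · exact h
    · exact absurd h (key (by rw [mul_comm]; exact hfg) (by rw [Valuation.map_sub_swap]; exact hd))
  refine ⟨rfl, heq, ?_⟩
  rw [sq, ← hfg, heq]

/-- the bound for the slope term. -/
theorem val_slope_term (N : NodeData A W x0 y0 α β c) {l : K} {a : A.ValueGroup}
    (ha : 1 < a) (h : A.valuation ((l - α) * (l - β)) ≤ a) :
    A.valuation ((l - β) ^ 3 - (l - α) ^ 3) ≤ a := by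
  set v := A.valuation with hv
  have hβα : v (β - α) = 1 := by rw [← N.vαβ, ← Valuation.map_neg, neg_sub]
  have key : ∀ {p1 p2 : K}, v (p1 - p2) = 1 → v (p1 * p2) ≤ a → v (p1 ^ 2) ≤ a := by
    intro p1 p2 h1 h2
    rcases le_or_gt (v p1) 1 with h3 | h3
    · rw [map_pow]; exact (pow_le_one₀ zero_le h3).trans ha.le
    · have h4 : v p2 = v p1 := by
        have : p2 = p1 - (p1 - p2) := by ring
        rw [this]
        exact Valuation.map_sub_eq_of_lt_left _ (by rw [h1]; exact h3)
      rw [map_mul, h4] at h2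
      rw [map_pow, sq]; exact h2
  have k1 : v ((l - α) ^ 2) ≤ a := key (p2 := l - β) (by
    have : (l - α) - (l - β) = β - α := by ring
    rw [this, hβα]) h
  have k2 : v ((l - β) ^ 2) ≤ a := key (p2 := l - α) (by
    have : (l - β) - (l - α) = α - β := by ring
    rw [this, N.vαβ]) (by rw [mul_comm]; exact h)
  have e : (l - β) ^ 3 - (l - α) ^ 3
      = (α - β) * ((l - β) ^ 2 + (l - α) * (l - β) + (l - α) ^ 2) := by ring
  rw [e, map_mul, N.vαβ, one_mul]
  exact Valuation.map_add_le _ (Valuation.map_add_le _ k2 h) k1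

variable {p : ℕ}

omit [DecidableEq K] in
/-- `(1 + w)^p - 1` has valuation `v w ^ p` if `v p < v w ^ (p-1)`. -/
theorem val_one_add_pow_sub_one (hp : p.Prime) {w : K} (hw : A.valuation w ≤ 1)
    (h : A.valuation (p : K) * A.valuation w < A.valuation w ^ p) :
    A.valuation ((1 + w) ^ p - 1) = A.valuation w ^ p := by
  obtain ⟨r, hr⟩ := exists_add_pow_prime_eq hp (1 : A) ⟨w, (A.valuation_le_one_iff _).1 hw⟩
  have hr' : (1 + w) ^ p = 1 ^ p + w ^ p + (p : K) * 1 * w * (r : K) := by
    have := congrArg (fun z : A => (z : K)) hr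
    simpa using this
  have e : (1 + w) ^ p - 1 = w ^ p + (p : K) * w * (r : K) := by
    rw [hr']; ring
  rw [e, ← map_pow]
  refine Valuation.map_add_eq_of_lt_left _ ?_
  rw [map_mul, map_mul, map_pow]
  calc A.valuation (p : K) * A.valuation w * A.valuation (r : K)
      ≤ A.valuation (p : K) * A.valuation w * 1 := by
        gcongr
        exact (A.valuation_le_one_iff _).2 r.2
    _ = A.valuation (p : K) * A.valuation w := mul_one _
    _ < A.valuation w ^ p := h

/-- **[HEIGHT1]** multiplicative reduction: a non integral `p`-torsion point exhausts the torsion bound. -/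
theorem height_one (N : NodeData A W x0 y0 α β c) (I : IntData A W) (D : PData A p)
    (hc : A.valuation c ≤ A.valuation (p : K)) {t : W.Point} (ht : t ≠ 0) (hpt : p • t = 0)
    (hx : 1 < A.valuation (xc t)) {j : ℕ} (hj : p = 2 * j + 1) :
    1 ≤ A.valuation (p : K) * A.valuation (xc t) ^ j := by
  by_contra hcon
  rw [not_le] at hcon
  have hp := D.hp
  obtain ⟨f, hf⟩ : ∃ f : W.Point → K, ∀ R, f R = (yc R - y0) - α * (xc R - x0) := ⟨_, fun _ => rfl⟩
  obtain ⟨g, hg⟩ : ∃ g : W.Point → K, ∀ R, g R = (yc R - y0) - β * (xc R - x0) := ⟨_, fun _ => rfl⟩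
  set v := A.valuation with hv
  obtain ⟨a, ha⟩ : ∃ a, a = v (xc t) := ⟨_, rfl⟩
  rw [← ha] at hx hcon
  have hapos : 0 < a := lt_trans zero_lt_one hx
  -- the multiples of `t`
  have hmul : ∀ k, 1 ≤ k → k < p → k • t ≠ 0 ∧ v (xc (k • t)) = a := by
    intro k hk1 hkp
    have hk : ¬ p ∣ k := fun h => by have := Nat.le_of_dvd (by omega) h; omega
    have := val_xc_nsmul A.valuation ((A.valuation_le_one_iff _).2 I.b₂)
      ((A.valuation_le_one_iff _).2 I.b₄) ((A.valuation_le_one_iff _).2 I.b₆)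
      ((A.valuation_le_one_iff _).2 I.b₈) ht (by rw [← hv, ← ha]; exact hx) (D.val_natCast hk)
    exact ⟨this.1, by rw [ha]; exact this.2⟩
  have hval : ∀ k, 1 ≤ k → k < p → v (xc (k • t) - x0) = a ∧ v (f (k • t)) = v (g (k • t)) ∧
      v (g (k • t)) ^ 2 = a ^ 3 := by
    intro k hk1 hkp
    obtain ⟨h0, h1⟩ := hmul k hk1 hkp
    have := val_nonint N h0 (by rw [← hv, h1]; exact hx)
    rw [← hv, h1, ← hf, ← hg] at this
    exact this
  have hp1 : 1 < p := hp.one_lt
  obtain ⟨γ, hγdef⟩ : ∃ γ, γ = v (g t) := ⟨_, rfl⟩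
  have hγ2 : γ ^ 2 = a ^ 3 := by
    have := (hval 1 le_rfl hp1).2.2
    rwa [one_smul, ← hγdef] at this
  have hγ : ∀ k, 1 ≤ k → k < p → v (g (k • t)) = γ := by
    intro k hk1 hkp
    exact (pow_left_inj₀ zero_le zero_le two_ne_zero).1 (((hval k hk1 hkp).2.2).trans hγ2.symm)
  have hγ1 : 1 ≤ γ := by
    by_contra h
    rw [not_le] at h
    have h1 : γ ^ 2 < 1 := pow_lt_one₀ zero_le h two_ne_zero
    have h2 : 1 < a ^ 3 := one_lt_pow₀ hx (by norm_num)
    rw [hγ2] at h1
    exact lt_asymm h1 h2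
  have hγpos : 0 < γ := lt_of_lt_of_le zero_lt_one hγ1
  have hg0 : ∀ k, 1 ≤ k → k < p → g (k • t) ≠ 0 := by
    intro k hk1 hkp h0
    have := hγ k hk1 hkp
    rw [h0, _root_.map_zero] at this
    exact hγpos.ne this
  have hgt0 : g t ≠ 0 := by have := hg0 1 le_rfl hp1; rwa [one_smul] at this
  have hft : v (f t) = γ := by
    have := (hval 1 le_rfl hp1).2.1
    rw [one_smul] at this
    rw [this, hγdef]
  have hft0 : f t ≠ 0 := by
    intro h0
    rw [h0, _root_.map_zero] at hft
    exact hγpos.ne hft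
  -- `U` and `w`
  obtain ⟨U, hU⟩ : ∃ U, U = f t / g t := ⟨_, rfl⟩
  obtain ⟨w, hw⟩ : ∃ w, w = U - 1 := ⟨_, rfl⟩
  have hU1 : v U = 1 := by rw [hU, map_div₀, hft, ← hγdef, div_self hγpos.ne']
  have hβα : v (β - α) = 1 := by rw [← N.vαβ, ← Valuation.map_neg, neg_sub]
  have hwg : w * g t = (β - α) * (xc t - x0) := by
    rw [hw, hU, sub_mul, div_mul_cancel₀ _ hgt0, hf, hg]; ring
  obtain ⟨ω, hω⟩ : ∃ ω, ω = v w := ⟨_, rfl⟩
  have hωγ : ω * γ = a := by
    have := congrArg v hwg
    rw [map_mul, map_mul, hβα, one_mul, ← hω, ← hγdef] at this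
    rw [this]
    have := (hval 1 le_rfl hp1).1
    rwa [one_smul] at this
  have hω2 : ω ^ 2 * a = 1 := by
    have h1 : (ω * γ) ^ 2 = a ^ 2 := by rw [hωγ]
    rw [mul_pow, hγ2] at h1
    apply mul_right_cancel₀ (pow_pos hapos 2).ne'
    rw [one_mul, mul_assoc, ← pow_succ', h1]
  have hω1 : ω < 1 := by
    by_contra h
    rw [not_lt] at h
    have : 1 < ω ^ 2 * a := by
      calc 1 < a := hx
        _ = 1 * a := (one_mul a).symm
        _ ≤ ω ^ 2 * a := by gcongr; exact one_le_pow₀ h
    rw [hω2] at this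
    exact lt_irrefl _ this
  have hωpos : 0 < ω := by
    rw [pos_iff_ne_zero]
    intro h0
    rw [h0] at hω2
    simp at hω2
  -- the negation of the claim
  have hpω : v (p : K) < ω ^ (2 * j) := by
    have h1 : ω ^ (2 * j) * a ^ j = 1 := by rw [pow_mul, ← mul_pow, hω2, one_pow]
    rw [← h1] at hcon
    exact lt_of_mul_lt_mul_right hcon zero_le
  -- the induction
  have hind : ∀ k, 1 ≤ k → k < p → v (f (k • t) / g (k • t) - U ^ k) ≤ v c * ω := by
    intro k hk1
    induction k, hk1 using Nat.le_induction with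
    | base =>
      intro _
      rw [one_smul, pow_one, hU, sub_self, _root_.map_zero]
      exact zero_le
    | succ k hk1 ih =>
      intro hkp
      have ih' := ih (by omega)
      have hk0 := (hmul k hk1 (by omega)).1
      have hk1' := (hmul (k + 1) (by omega) hkp).1
      have hsucc : (k + 1) • t = t + k • t := succ_nsmul' t k
      obtain ⟨l, hl1, hl2⟩ := cocycle N ht hk0 (by rw [← hsucc]; exact hk1')
      rw [← hsucc, ← hf, ← hf, ← hf, ← hg, ← hg, ← hg] at hl2
      rw [← hsucc] at hl1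
      have hla : v ((l - α) * (l - β)) ≤ a := by
        rw [← hl1]
        refine Valuation.map_add_le _ (Valuation.map_add_le _ ?_ ?_) ?_
        · have := (hval 1 le_rfl hp1).1
          rw [one_smul] at this
          exact this.le
        · exact (hval k hk1 (by omega)).1.le
        · exact (hval (k + 1) (by omega) hkp).1.le
      have hE := val_slope_term N hx hla
      have hgk := hg0 k hk1 (by omega)
      have hgk1 := hg0 (k + 1) (by omega) hkp
      have e1 : f ((k + 1) • t) / g ((k + 1) • t) - U * (f (k • t) / g (k • t))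
          = c * ((l - β) ^ 3 - (l - α) ^ 3) / (g t * g (k • t) * g ((k + 1) • t)) := by
        rw [← hl2, hU]
        field_simp
      have h1 : v (f ((k + 1) • t) / g ((k + 1) • t) - U * (f (k • t) / g (k • t))) ≤ v c * ω := by
        rw [e1, map_div₀, map_mul, map_mul, map_mul, ← hγdef, hγ k hk1 (by omega),
          hγ (k + 1) (by omega) hkp]
        rw [div_le_iff₀ (by positivity)]
        calc v c * v ((l - β) ^ 3 - (l - α) ^ 3) ≤ v c * a := by gcongr
          _ = v c * (ω * γ) := by rw [hωγ]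
          _ = v c * ω * (γ * 1 * 1) := by rw [mul_one, mul_one, mul_assoc]
          _ ≤ v c * ω * (γ * γ * γ) := by gcongr
      have e2 : f ((k + 1) • t) / g ((k + 1) • t) - U ^ (k + 1)
          = (f ((k + 1) • t) / g ((k + 1) • t) - U * (f (k • t) / g (k • t)))
            + U * (f (k • t) / g (k • t) - U ^ k) := by ring
      rw [e2]
      refine Valuation.map_add_le _ h1 ?_
      rw [map_mul, hU1, one_mul]
      exact ih'
  -- `k = p - 1`
  have hlast := hind (p - 1) (by omega) (by omega)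
  have hneg : (p - 1) • t = -t := by
    have : (p - 1) • t + t = 0 := by
      rw [← succ_nsmul, Nat.sub_add_cancel hp.pos, hpt]
    exact eq_neg_of_add_eq_zero_left this
  have hfneg : f (-t) = - g t := by
    rw [hf, hg, xc_neg, yc_neg ht, negY]
    linear_combination (-1 : K) * N.hy - (xc t - x0) * N.hsum
  have hgneg : g (-t) = - f t := by
    rw [hf, hg, xc_neg, yc_neg ht, negY]
    linear_combination (-1 : K) * N.hy - (xc t - x0) * N.hsum
  rw [hneg, hfneg, hgneg] at hlast
  have e3 : (1 + w) ^ p - 1 = - (U * (-g t / -f t - U ^ (p - 1))) := by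
    have h1 : 1 + w = U := by rw [hw]; ring
    have h2 : U * (-g t / -f t) = 1 := by
      rw [hU]; field_simp
    have h3 : U * U ^ (p - 1) = U ^ p := by
      rw [← pow_succ', Nat.sub_add_cancel hp.pos]
    rw [h1, mul_sub, h2, h3]; ring
  have hfin : v ((1 + w) ^ p - 1) ≤ v c * ω := by
    rw [e3, Valuation.map_neg, map_mul, hU1, one_mul]
    exact hlast
  have hpw : v (p : K) * v w < v w ^ p := by
    rw [← hω]
    calc v (p : K) * ω < ω ^ (2 * j) * ω := by gcongr
      _ = ω ^ p := by rw [← pow_succ, ← hj]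
  rw [val_one_add_pow_sub_one hp (by rw [← hv, ← hω]; exact hω1.le) hpw, ← hω] at hfin
  have : v c * ω < ω ^ p := by
    calc v c * ω ≤ v (p : K) * ω := by gcongr
      _ < ω ^ p := by rw [hω]; exact hpw
  exact absurd hfin (not_le.2 this)

/-- `hN` of `HW.AtP.integral_of_not_mem_line`. -/
theorem one_le_val_prod_lineX (N : NodeData A W x0 y0 α β c) (I : IntData A W) (D : PData A p)
    (hc : A.valuation c ≤ A.valuation (p : K)) {t : W.Point} (ht : t ≠ 0) (hpt : p • t = 0)
    (hx : 1 < A.valuation (xc t)) :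
    1 ≤ A.valuation (p : K) * A.valuation (∏ x ∈ lineX t (p - 1), x) := by
  obtain ⟨j, hj1, hj⟩ := D.exists_half
  have hp1 : p - 1 < p := Nat.sub_lt D.hp.pos one_pos
  have h1 := height_one N I D hc ht hpt hx hj
  have hsub : lineX t j ⊆ lineX t (p - 1) := by
    apply Finset.image_subset_image
    intro k hk
    rw [Finset.mem_Icc] at hk ⊢
    omega
  have hcard : j ≤ (lineX t (p - 1)).card := by
    rw [← card_lineX_half D.hp ht hpt hj]
    exact Finset.card_le_card hsub
  have h2 : A.valuation (∏ x ∈ lineX t (p - 1), x) = A.valuation (xc t) ^ (lineX t (p - 1)).card := by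
    rw [map_prod, Finset.prod_congr rfl (fun x hx' => val_of_mem_lineX I D ht hx hp1 hx'),
      Finset.prod_const]
  rw [h2]
  calc 1 ≤ A.valuation (p : K) * A.valuation (xc t) ^ j := h1
    _ ≤ A.valuation (p : K) * A.valuation (xc t) ^ (lineX t (p - 1)).card := by
      gcongr
      exact hx.le

/-- multiplicative reduction at `p`: the `p`-torsion points outside the line of a non integral one are integral. -/
theorem integral_of_not_mem_line_mult (N : NodeData A W x0 y0 α β c) (I : IntData A W)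
    (D : PData A p) (hc : A.valuation c ≤ A.valuation (p : K)) {t P : W.Point} (ht : t ≠ 0)
    (hpt : p • t = 0) (hxt : 1 < A.valuation (xc t)) (hP : P ≠ 0) (hpP : p • P = 0)
    (hPt : ∀ k : ℕ, P ≠ k • t) : A.valuation (xc P) ≤ 1 :=
  integral_of_not_mem_line I D ht hpt hxt hP hpP hPt (one_le_val_prod_lineX N I D hc ht hpt hxt)

/-- **(G3)** the non integral `p`-torsion points lie on ONE line. -/
theorem exists_nsmul_of_nonintegral (N : NodeData A W x0 y0 α β c) (I : IntData A W)
    (D : PData A p) (hc : A.valuation c ≤ A.valuation (p : K)) {t P : W.Point} (ht : t ≠ 0)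
    (hpt : p • t = 0) (hxt : 1 < A.valuation (xc t)) (hpP : p • P = 0)
    (hxP : P = 0 ∨ 1 < A.valuation (xc P)) : ∃ k : ℕ, P = k • t := by
  by_contra hcon
  push Not at hcon
  have hP : P ≠ 0 := fun h => hcon 0 (by rw [h, zero_smul])
  rcases hxP with h | h
  · exact hP h
  · exact absurd (integral_of_not_mem_line_mult N I D hc ht hpt hxt hP hpP hcon) (not_le.2 h)

omit [DecidableEq K] in
/-- the discriminant in the normal form. -/
theorem Δ_eq (N : NodeData A W x0 y0 α β c) : W.Δ = -c * ((α - β) ^ 6 + 432 * c) := by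
  simp only [WeierstrassCurve.Δ, b₂, b₄, b₆, b₈]
  rw [N.a₆_eq, N.a₄_eq, N.a₃_eq, N.a₂_eq, N.a₁_eq]
  ring

omit [DecidableEq K] in
theorem val_c_eq (N : NodeData A W x0 y0 α β c) : A.valuation c = A.valuation W.Δ := by
  rw [Δ_eq N, map_mul, Valuation.map_neg]
  have h1 : A.valuation ((α - β) ^ 6 + 432 * c) = 1 := by
    have h2 : A.valuation ((α - β) ^ 6) = 1 := by rw [map_pow, N.vαβ, one_pow]
    rw [← h2]
    refine Valuation.map_add_eq_of_lt_left _ ?_
    rw [h2, map_mul]
    have w : A.valuation (432 : K) ≤ 1 := by exact_mod_cast valuation_natCast_le_one A 432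
    exact lt_of_le_of_lt (mul_le_of_le_one_left' w) N.vc
  rw [h1, mul_one]

end Fermat.Agent.ML.ESide.Height
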